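import Fermat.Agent.P2.Full.Period
import Fermat.Agent.JAN.JanMain
import Fermat.Agent.JAN.Degree

/-!
# Full Hecke support

`exists_lattice`: the period lattice with the action of the full Hecke algebra `HeckeAlg`
(`t_ℓ ↦ T_ℓ`, `ℓ ∤ N`, and `t_ℓ ↦ U_ℓ`, `ℓ ∣ N`).
-/

set_option autoImplicit false
set_option linter.style.haveILetI false

open CongruenceSubgroup ModularCurve
open scoped MatrixGroups
open Fermat.Agent.GAL Fermat.Agent.GAL.PeriodLattice Fermat.Agent.JAN

noncomputable section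

namespace Fermat.Agent.P2.Full

local notation "Qbar" => AlgebraicClosure ℚ

/-- The JAN main theorem for all primes. -/
theorem janFull (N : ℕ) [NeZero N] (n : ℕ) (hn : 0 < n) :
    ∃ Φ : XN N n →+ JZero N, Function.Injective Φ ∧
      (∀ x : JZero N, n • x = 0 → ∃ ψ, Φ ψ = x) ∧
      ∀ (ℓ : Nat.Primes) (ψ : XN N n), haveI : NeZero (ℓ : ℕ) := ⟨ℓ.2.ne_zero⟩
        Φ (heckeXN N n ℓ ψ) = heckeOperatorBar N ℓ (Φ ψ) := by
  letI : Algebra (AlgebraicClosure ℚ) ℂ := algebraQbarC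
  haveI : NeZero n := ⟨hn.ne'⟩
  have hK : KummerInputs N n := kummerInputs PlacesDesc.placesDesc PlacesDesc.placesDesc
  exact ⟨Phi Fermat.Agent.Jan.DegreeWiring.jAlg hK, Phi_injective _ _,
    fun x hx => exists_Phi_eq Fermat.Agent.Jan.DegreeWiring.jAlg hK hx,
    fun ℓ ψ => Phi_hecke Fermat.Agent.Jan.DegreeWiring.jAlg hK (HeckeInputDone.heckeInput N n) ℓ ψ⟩

/-- the twisted form: equivariant for `heckeW` -/
theorem janW (N : ℕ) [NeZero N] (n : ℕ) (hn : 0 < n) :
    letI := heckeModuleBar N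
    ∃ Φ : XN N n →+ JZero N, Function.Injective Φ ∧
      ∀ (ℓ : Nat.Primes) (φ ψ : XN N n), haveI : NeZero (ℓ : ℕ) := ⟨ℓ.2.ne_zero⟩
        (ψ : Additive (Gamma0 N) →+ ZMod n) = heckeW N ℓ (φ : Additive (Gamma0 N) →+ ZMod n) →
          Φ ψ = heckeGen ℓ • Φ φ := by
  letI := heckeModuleBar N
  obtain ⟨Φ, hinj, -, hT⟩ := janFull N n hn
  let w : XN N n →+ XN N n :=
    { toFun := fun ψ => ⟨compW (ψ : Additive (Gamma0 N) →+ ZMod n), compW_mem_XN ψ.2⟩
      map_zero' := rfl
      map_add' := fun _ _ => rfl }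
  have hw : ∀ ψ, w (w ψ) = ψ := fun ψ => Subtype.ext (compW_compW _)
  refine ⟨Φ.comp w, hinj.comp (Function.LeftInverse.injective hw), fun ℓ φ ψ h => ?_⟩
  haveI : NeZero (ℓ : ℕ) := ⟨ℓ.2.ne_zero⟩
  rw [AddMonoidHom.comp_apply, AddMonoidHom.comp_apply,
    heckeModuleBar_heckeGen_smul (Fermat.Agent.JAN.Degree.heckeOperatorsCommuteBar N) ℓ,
    ← hT ℓ (w φ)]
  congr 1
  apply Subtype.ext
  change compW (ψ : Additive (Gamma0 N) →+ ZMod n) =
    heckeAdd N ℓ (compW (φ : Additive (Gamma0 N) →+ ZMod n))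
  rw [heckeAdd_compW, h]

variable {N : ℕ} [NeZero N]

section main

variable {J : Type*} [AddCommGroup J] [Module HeckeAlg J]

/-- equivariance of `Φ` for all of `HeckeAlg`. -/
theorem map_actFull {n : ℕ} (Φ : XN N n →+ J)
    (hΦ : ∀ (ℓ : Nat.Primes) (φ ψ : XN N n), haveI : NeZero (ℓ : ℕ) := ⟨ℓ.2.ne_zero⟩
        (ψ : Additive (Gamma0 N) →+ ZMod n) = heckeW N ℓ (φ : Additive (Gamma0 N) →+ ZMod n) →
          Φ ψ = heckeGen ℓ • Φ φ) (a : HeckeAlg) :
    ∀ ψ : perLat N →+ ZMod n,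
      Φ ⟨(ψ.comp (actFull N (CuspForm.heckeEvalForms N 2 a)).toAddMonoidHom).comp
        (perHom N).rangeRestrict, comp_perHom_mem _⟩ =
      a • Φ ⟨ψ.comp (perHom N).rangeRestrict, comp_perHom_mem _⟩ := by
  induction a using MvPolynomial.induction_on with
  | C c =>
    intro ψ
    rw [CuspForm.heckeEvalForms_C]
    have h1 : (MvPolynomial.C c : HeckeAlg) = (c : HeckeAlg) := by simp
    rw [h1, Int.cast_smul_eq_zsmul, ← map_zsmul]
    congr 1
    apply Subtype.ext
    refine AddMonoidHom.ext fun γ => ?_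
    show ψ _ = c • ψ _
    rw [← map_zsmul]
    congr 1
    have h2 : (algebraMap ℤ (CuspForm.heckeAlgebra N 2 ∅)) c =
        (c : CuspForm.heckeAlgebra N 2 ∅) := by simp
    rw [h2, map_intCast]
    rfl
  | add p q hp hq =>
    intro ψ
    rw [_root_.add_smul, ← hp ψ, ← hq ψ, ← map_add]
    congr 1
    apply Subtype.ext
    refine AddMonoidHom.ext fun γ => ?_
    show ψ _ = ψ _ + ψ _
    rw [← map_add]
    congr 1
    rw [map_add, map_add]
    rfl
  | mul_X p ℓ hp =>
    intro ψ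
    have h2 : CuspForm.heckeEvalForms N 2 (MvPolynomial.X ℓ) =
        CuspForm.heckeFormsGen N 2 ℓ := CuspForm.heckeEvalForms_heckeGen N 2 ℓ
    have h4 : actFull N (CuspForm.heckeEvalForms N 2 (p * MvPolynomial.X ℓ)) =
        actFull N (CuspForm.heckeEvalForms N 2 p) * actFull N (CuspForm.heckeFormsGen N 2 ℓ) := by
      rw [map_mul, map_mul, h2]
    have h1 := hΦ ℓ
      ⟨(ψ.comp (actFull N (CuspForm.heckeEvalForms N 2 p)).toAddMonoidHom).comp
        (perHom N).rangeRestrict, comp_perHom_mem _⟩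
      ⟨(ψ.comp (actFull N (CuspForm.heckeEvalForms N 2 (p * MvPolynomial.X ℓ))).toAddMonoidHom).comp
        (perHom N).rangeRestrict, comp_perHom_mem _⟩ (by
        refine Eq.trans ?_ (heckeW_comp_rangeRestrict ℓ
          (ψ.comp (actFull N (CuspForm.heckeEvalForms N 2 p)).toAddMonoidHom)).symm
        refine AddMonoidHom.ext fun γ => ?_
        exact congrArg ψ (LinearMap.congr_fun h4 ((perHom N).rangeRestrict γ)))
    have h3 : (heckeGen ℓ : HeckeAlg) = MvPolynomial.X ℓ := rfl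
    rw [h1, hp ψ, ← mul_smul, h3, mul_comm]

/-- **Support theorem, lattice form**: an element of `HeckeAlg` killing `J[m]` acts on the
period lattice as `m` times an endomorphism. -/
theorem exists_end {m : ℕ} (hm : 0 < m)
    (hJ : ∃ Φ : XN N m →+ J, Function.Injective Φ ∧
      ∀ (ℓ : Nat.Primes) (φ ψ : XN N m), haveI : NeZero (ℓ : ℕ) := ⟨ℓ.2.ne_zero⟩
        (ψ : Additive (Gamma0 N) →+ ZMod m) = heckeW N ℓ (φ : Additive (Gamma0 N) →+ ZMod m) →
          Φ ψ = heckeGen ℓ • Φ φ)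
    (a : HeckeAlg) (ha : ∀ x : J, m • x = 0 → a • x = 0) :
    ∃ b : Module.End ℤ (perLat N), actFull N (CuspForm.heckeEvalForms N 2 a) = (m : ℤ) • b := by
  have hmne : NeZero m := ⟨hm.ne'⟩
  obtain ⟨Φ, hinj, hΦ⟩ := hJ
  have hfree : Module.Free ℤ (perLat N) := inferInstance
  set t := CuspForm.heckeEvalForms N 2 a with ht
  -- all functionals kill `actFull t`
  have hkill : ∀ ψ : perLat N →+ ZMod m, ψ.comp (actFull N t).toAddMonoidHom = 0 := by
    intro ψ
    have h1 := map_actFull Φ hΦ a ψ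
    have h2 : m • Φ ⟨ψ.comp (perHom N).rangeRestrict, comp_perHom_mem _⟩ = 0 := by
      rw [← map_nsmul]
      have : m • (⟨ψ.comp (perHom N).rangeRestrict, comp_perHom_mem _⟩ : XN N m) = 0 := by
        apply Subtype.ext
        refine AddMonoidHom.ext fun γ => ?_
        show m • ψ _ = 0
        rw [nsmul_eq_mul, ZMod.natCast_self, zero_mul]
      rw [this, map_zero]
    rw [ha _ h2, ← map_zero Φ] at h1
    have h3 := congrArg Subtype.val (hinj h1)
    refine AddMonoidHom.ext fun x => ?_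
    obtain ⟨γ, hγ⟩ := (perHom N).rangeRestrict_surjective x
    rw [← hγ]
    exact DFunLike.congr_fun h3 γ
  exact exists_eq_smul (actFull N t) hkill

end main

/-- **Full Hecke support.** -/
theorem exists_lattice (N : ℕ) [NeZero N] :
    letI := heckeModuleBar N
    ∃ (P : Type) (_ : AddCommGroup P) (_ : Module HeckeAlg P) (_ : Module.Finite ℤ P)
      (_ : Module.Free ℤ P),
      (∀ a : HeckeAlg, (∀ x : P, a • x = 0) → CuspForm.heckeEvalForms N 2 a = 0) ∧
      ∀ m : ℕ, 0 < m → ∀ a : HeckeAlg, (∀ x : JZero N, m • x = 0 → a • x = 0) →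
        ∀ x : P, ∃ y : P, a • x = m • y := by
  letI := heckeModuleBar N
  have h1 : Module.Finite ℤ (perLat N) := inferInstance
  have h2 : Module.Free ℤ (perLat N) := inferInstance
  refine ⟨perLat N, inferInstance, Module.compHom (perLat N)
    ((actFull N).comp (CuspForm.heckeEvalForms N 2)), h1, h2, ?_, ?_⟩
  · intro a ha
    apply actFull_injective
    rw [map_zero]
    exact LinearMap.ext fun x => ha x
  · intro m hm a ha x
    obtain ⟨b, hb⟩ := exists_end hm (janW N m hm) a ha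
    refine ⟨b x, ?_⟩
    show (actFull N (CuspForm.heckeEvalForms N 2 a)) x = m • b x
    rw [hb, LinearMap.smul_apply]
    exact natCast_zsmul _ _

end Fermat.Agent.P2.Full
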