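import Fermat.Agent.GAL.HeckeCompare
import Fermat.Agent.JAN.Chars

/-!
# Full Hecke support: the Fricke automorphism of `Γ₀(N)` and the transfer

`W : Γ₀(N) ≃ Γ₀(N)`, `[a b; c d] ↦ [d, -c/N; -bN, a]`.  We show
`heckeAdd N ℓ (ψ ∘ W) (W γ) = ∑ x, ψ (coc γ x)` where `coc` is the cocycle of the usual
representatives of the Hecke operator `T_ℓ` resp. `U_ℓ`.
-/

set_option autoImplicit false

open CongruenceSubgroup Matrix.SpecialLinearGroup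
open scoped MatrixGroups OnePoint
open P2MW.S_ModularForm_heckeT_slash_eq_self_of_mem_Gamma0.ModularForm.HeckeSlashInvariance

noncomputable section

namespace Fermat.Agent.P2.Full

open Fermat.Agent.GAL.HeckeHom Fermat.Agent.GAL.HeckeCompare Fermat.Agent.JAN

/-! ### The Fricke automorphism -/

variable {N : ℕ}

/-- `[d, -c/N; -bN, a]` -/
def wMat (N : ℕ) (A : Matrix (Fin 2) (Fin 2) ℤ) : Matrix (Fin 2) (Fin 2) ℤ :=
  !![A 1 1, -(A 1 0 / N); -(A 0 1 * N), A 0 0]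

theorem gamma0_dvd (γ : Gamma0 N) : (N : ℤ) ∣ ((γ : SL(2, ℤ)) : Matrix (Fin 2) (Fin 2) ℤ) 1 0 :=
  (ZMod.intCast_zmod_eq_zero_iff_dvd _ _).mp (Gamma0_mem.mp γ.2)

section

variable [NeZero N]

theorem N_ne : (N : ℤ) ≠ 0 := by exact_mod_cast NeZero.ne N

theorem div_N (c : ℤ) : (N : ℤ) * c / N = c := Int.mul_ediv_cancel_left _ N_ne

theorem wMat_det (γ : Gamma0 N) : (wMat N ((γ : SL(2, ℤ)) : Matrix (Fin 2) (Fin 2) ℤ)).det = 1 := by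
  obtain ⟨c, hc⟩ := gamma0_dvd γ
  have hdet := (γ : SL(2, ℤ)).2
  rw [Matrix.det_fin_two, hc] at hdet
  rw [wMat, Matrix.det_fin_two_of, hc, Int.mul_ediv_cancel_left _ N_ne]
  linear_combination hdet

theorem wMat_mem (γ : Gamma0 N) :
    (⟨wMat N ((γ : SL(2, ℤ)) : Matrix (Fin 2) (Fin 2) ℤ), wMat_det γ⟩ : SL(2, ℤ)) ∈ Gamma0 N := by
  refine Gamma0_mem.mpr ?_
  change ((-(((γ : SL(2, ℤ)) : Matrix (Fin 2) (Fin 2) ℤ) 0 1 * N) : ℤ) : ZMod N) = 0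
  push_cast
  simp

/-- the Fricke automorphism as a function -/
def wFun (γ : Gamma0 N) : Gamma0 N :=
  ⟨⟨wMat N ((γ : SL(2, ℤ)) : Matrix (Fin 2) (Fin 2) ℤ), wMat_det γ⟩, wMat_mem γ⟩

theorem wFun_coe (γ : Gamma0 N) (i j : Fin 2) :
    ((wFun γ : SL(2, ℤ)) : Matrix (Fin 2) (Fin 2) ℤ) i j =
      wMat N ((γ : SL(2, ℤ)) : Matrix (Fin 2) (Fin 2) ℤ) i j := rfl

theorem wFun_wFun (γ : Gamma0 N) : wFun (wFun γ) = γ := by
  obtain ⟨c, hc⟩ := gamma0_dvd γ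
  apply Subtype.ext
  apply Subtype.ext
  ext i j
  rw [wFun_coe]
  have h1 : ∀ i j, ((wFun γ : SL(2, ℤ)) : Matrix (Fin 2) (Fin 2) ℤ) i j =
      wMat N ((γ : SL(2, ℤ)) : Matrix (Fin 2) (Fin 2) ℤ) i j := fun i j => rfl
  have e1 : -(((γ : SL(2, ℤ)) : Matrix (Fin 2) (Fin 2) ℤ) 0 1 * (N : ℤ)) / N =
      -((γ : SL(2, ℤ)) : Matrix (Fin 2) (Fin 2) ℤ) 0 1 := by
    rw [← neg_mul, Int.mul_ediv_cancel _ N_ne]
  fin_cases i <;> fin_cases j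
  · simp [wMat, h1]
  · simp [wMat, h1, e1]
  · simp [wMat, h1, hc, div_N]
    ring
  · simp [wMat, h1]

/-- the Fricke automorphism of `Γ₀(N)` -/
def W (N : ℕ) [NeZero N] : Gamma0 N ≃* Gamma0 N where
  toFun := wFun
  invFun := wFun
  left_inv := wFun_wFun
  right_inv := wFun_wFun
  map_mul' γ δ := by
    obtain ⟨c, hc⟩ := gamma0_dvd γ
    obtain ⟨d, hd⟩ := gamma0_dvd δ
    have hN : (N : ℤ) ≠ 0 := N_ne
    have e3 : ∀ x y : ℤ, ((N : ℤ) * c * x + y * (N * d)) / N = c * x + y * d := by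
      intro x y
      rw [show (N : ℤ) * c * x + y * (N * d) = N * (c * x + y * d) by ring,
        Int.mul_ediv_cancel_left _ hN]
    apply Subtype.ext
    apply Subtype.ext
    change wMat N (((γ : SL(2, ℤ)) * (δ : SL(2, ℤ)) : SL(2, ℤ)) : Matrix (Fin 2) (Fin 2) ℤ)
      = wMat N ((γ : SL(2, ℤ)) : Matrix (Fin 2) (Fin 2) ℤ)
        * wMat N ((δ : SL(2, ℤ)) : Matrix (Fin 2) (Fin 2) ℤ)
    rw [Matrix.SpecialLinearGroup.coe_mul]
    ext i j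
    fin_cases i <;> fin_cases j <;>
      simp [wMat, Matrix.mul_apply, Fin.sum_univ_two, hc, hd, e3, div_N] <;> ring

theorem W_W (γ : Gamma0 N) : W N (W N γ) = γ := wFun_wFun γ

theorem W_coe (γ : Gamma0 N) (i j : Fin 2) :
    ((W N γ : SL(2, ℤ)) : Matrix (Fin 2) (Fin 2) ℤ) i j =
      wMat N ((γ : SL(2, ℤ)) : Matrix (Fin 2) (Fin 2) ℤ) i j := rfl

theorem W_trace (γ : Gamma0 N) : ((W N γ : SL(2, ℤ)) : Matrix (Fin 2) (Fin 2) ℤ).trace =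
    ((γ : SL(2, ℤ)) : Matrix (Fin 2) (Fin 2) ℤ).trace := by
  rw [Matrix.trace_fin_two, Matrix.trace_fin_two, W_coe, W_coe]
  simp [wMat, add_comm]

end

/-! ### Membership in the subgroup, on the `W` side -/

section

variable [NeZero N] {ℓ : ℕ} [NeZero ℓ]

omit [NeZero ℓ] in
theorem mem_sub_iff_W (g : Gamma0 N) :
    g ∈ subGamma0 N ℓ ↔ (ℓ : ℤ) ∣ ((W N g : SL(2, ℤ)) : Matrix (Fin 2) (Fin 2) ℤ) 0 1 := by
  obtain ⟨c, hc⟩ := gamma0_dvd g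
  have hN : (N : ℤ) ≠ 0 := N_ne
  have h1 : ((W N g : SL(2, ℤ)) : Matrix (Fin 2) (Fin 2) ℤ) 0 1 = -c := by
    rw [W_coe]
    simp [wMat, hc, div_N]
  rw [h1, dvd_neg, Subgroup.mem_subgroupOf, Gamma0_mem, ZMod.intCast_zmod_eq_zero_iff_dvd, hc]
  push_cast
  exact mul_dvd_mul_iff_left hN

/-- the fundamental relation `diag(1, ℓ) (W h) = W (conj h) diag(1, ℓ)` -/
theorem rep_zero_mul (h : subGamma0 N ℓ) :
    ModularForm.heckeMatrix ℓ 0 * mapGL ℝ (W N (h : Gamma0 N) : SL(2, ℤ)) =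
      mapGL ℝ (W N (conjHom' N ℓ h) : SL(2, ℤ)) * ModularForm.heckeMatrix ℓ 0 := by
  have hℓ : (ℓ : ℤ) ≠ 0 := by exact_mod_cast NeZero.ne ℓ
  have hℓ1 : ℓ ≠ 0 := NeZero.ne ℓ
  have hN : (N : ℤ) ≠ 0 := N_ne
  obtain ⟨e, he⟩ := gamma0_mul_dvd (⟨((h : Gamma0 N) : SL(2, ℤ)), h.2⟩ : Gamma0 (N * ℓ))
  have he' : (((h : Gamma0 N) : SL(2, ℤ)) : Matrix (Fin 2) (Fin 2) ℤ) 1 0 = (N : ℤ) * ℓ * e := he
  have key : ∀ i j, (((conjHom' N ℓ h : Gamma0 N) : SL(2, ℤ)) : Matrix (Fin 2) (Fin 2) ℤ) i j =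
      conjMat ℓ (((h : Gamma0 N) : SL(2, ℤ)) : Matrix (Fin 2) (Fin 2) ℤ) i j := fun i j => rfl
  have e1 : (N : ℤ) * ℓ * e / N = ℓ * e := by
    rw [mul_assoc, Int.mul_ediv_cancel_left _ hN]
  have e2 : (N : ℤ) * ℓ * e / ℓ = N * e := by
    rw [show (N : ℤ) * ℓ * e = ℓ * (N * e) by ring, Int.mul_ediv_cancel_left _ hℓ]
  have e3 : (N : ℤ) * e / N = e := Int.mul_ediv_cancel_left _ hN
  have w1 : ∀ i j, ((W N (h : Gamma0 N) : SL(2, ℤ)) : Matrix (Fin 2) (Fin 2) ℤ) i j =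
      wMat N (((h : Gamma0 N) : SL(2, ℤ)) : Matrix (Fin 2) (Fin 2) ℤ) i j := fun i j => rfl
  have w2 : ∀ i j, ((W N (conjHom' N ℓ h) : SL(2, ℤ)) : Matrix (Fin 2) (Fin 2) ℤ) i j =
      wMat N (((conjHom' N ℓ h : Gamma0 N) : SL(2, ℤ)) : Matrix (Fin 2) (Fin 2) ℤ) i j :=
    fun i j => rfl
  ext i j
  fin_cases i <;> fin_cases j <;>
    simp [Matrix.mul_apply, Fin.sum_univ_two, hℓ1, w1, w2, wMat, key, conjMat, he', e1, e2, e3]
    <;> ring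

end

/-! ### The case `ℓ ∣ N` -/

section U

variable [NeZero N] {ℓ : ℕ} [NeZero ℓ]

omit [NeZero N] [NeZero ℓ] in
theorem dvd_of (hℓN : ℓ ∣ N) (g : Gamma0 N) :
    (ℓ : ℤ) ∣ ((g : SL(2, ℤ)) : Matrix (Fin 2) (Fin 2) ℤ) 1 0 :=
  (Int.natCast_dvd_natCast.mpr hℓN).trans (gamma0_dvd g)

theorem cast_of (hℓN : ℓ ∣ N) (g : Gamma0 N) :
    ((((g : SL(2, ℤ)) : Matrix (Fin 2) (Fin 2) ℤ) 1 0 : ℤ) : ZMod ℓ) = 0 :=
  (ZMod.intCast_zmod_eq_zero_iff_dvd _ _).mpr (dvd_of hℓN g)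

/-- the action on the representatives -/
def actU (hℓN : ℓ ∣ N) (g : Gamma0 N) (x : ZMod ℓ) : ZMod ℓ :=
  affinePerm (g : SL(2, ℤ)) (cast_of hℓN g) x

theorem actU_apply (hℓN : ℓ ∣ N) (g : Gamma0 N) (x : ZMod ℓ) :
    actU hℓN g x = (((g : SL(2, ℤ)) 1 1 : ℤ) : ZMod ℓ) *
      ((((g : SL(2, ℤ)) 0 1 : ℤ) : ZMod ℓ) + (((g : SL(2, ℤ)) 1 1 : ℤ) : ZMod ℓ) * x) := rfl

theorem exists_cocU (hℓN : ℓ ∣ N) (g : Gamma0 N) (x : ZMod ℓ) :
    ∃ g' : Gamma0 N, ModularForm.heckeMatrix ℓ x.val * mapGL ℝ (g : SL(2, ℤ)) =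
      mapGL ℝ (g' : SL(2, ℤ)) * ModularForm.heckeMatrix ℓ (actU hℓN g x).val := by
  obtain ⟨g', hg', h⟩ := heckeMatrix_mul_of_dvd (g : SL(2, ℤ)) (dvd_of hℓN g) x
  refine ⟨⟨g', Gamma0_mem.mpr ?_⟩, h⟩
  rw [hg']
  push_cast
  rw [Gamma0_mem.mp g.2, mul_zero]

/-- the cocycle -/
def cocU (hℓN : ℓ ∣ N) (g : Gamma0 N) (x : ZMod ℓ) : Gamma0 N := (exists_cocU hℓN g x).choose

theorem cocU_spec (hℓN : ℓ ∣ N) (g : Gamma0 N) (x : ZMod ℓ) :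
    ModularForm.heckeMatrix ℓ x.val * mapGL ℝ (g : SL(2, ℤ)) =
      mapGL ℝ (cocU hℓN g x : SL(2, ℤ)) * ModularForm.heckeMatrix ℓ (actU hℓN g x).val :=
  (exists_cocU hℓN g x).choose_spec

theorem cocU_eq_of (hℓN : ℓ ∣ N) {g : Gamma0 N} {x : ZMod ℓ} {g' : Gamma0 N}
    (h : ModularForm.heckeMatrix ℓ x.val * mapGL ℝ (g : SL(2, ℤ)) =
      mapGL ℝ (g' : SL(2, ℤ)) * ModularForm.heckeMatrix ℓ (actU hℓN g x).val) :
    cocU hℓN g x = g' := by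
  have h2 := (cocU_spec hℓN g x).symm.trans h
  exact Subtype.ext (Fermat.Agent.GAL.HeckeHom.mapGL_injective (mul_right_cancel h2))

theorem actU_one (hℓN : ℓ ∣ N) (x : ZMod ℓ) : actU hℓN (1 : Gamma0 N) x = x := by
  rw [actU_apply]
  simp

theorem actU_mul (hℓN : ℓ ∣ N) (g h : Gamma0 N) (x : ZMod ℓ) :
    actU hℓN (g * h) x = actU hℓN h (actU hℓN g x) := by
  rw [actU_apply, actU_apply, actU_apply]
  have e1 : ((g * h : Gamma0 N) : SL(2, ℤ)) 1 1 =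
      (g : SL(2, ℤ)) 1 0 * (h : SL(2, ℤ)) 0 1 + (g : SL(2, ℤ)) 1 1 * (h : SL(2, ℤ)) 1 1 := by
    rw [Subgroup.coe_mul, Matrix.SpecialLinearGroup.coe_mul, Matrix.mul_apply, Fin.sum_univ_two]
  have e2 : ((g * h : Gamma0 N) : SL(2, ℤ)) 0 1 =
      (g : SL(2, ℤ)) 0 0 * (h : SL(2, ℤ)) 0 1 + (g : SL(2, ℤ)) 0 1 * (h : SL(2, ℤ)) 1 1 := by
    rw [Subgroup.coe_mul, Matrix.SpecialLinearGroup.coe_mul, Matrix.mul_apply, Fin.sum_univ_two]
  rw [e1, e2]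
  push_cast
  have h1 := cast_of hℓN g
  have h2 := unit_of_apply_one_zero_eq_zero (g : SL(2, ℤ)) h1
  rw [h1]
  linear_combination ((((h : SL(2, ℤ)) 1 1 : ℤ) : ZMod ℓ) * (((h : SL(2, ℤ)) 0 1 : ℤ) : ZMod ℓ)) * h2

theorem cocU_mul (hℓN : ℓ ∣ N) (g h : Gamma0 N) (x : ZMod ℓ) :
    cocU hℓN (g * h) x = cocU hℓN g x * cocU hℓN h (actU hℓN g x) := by
  apply cocU_eq_of
  have h1 := cocU_spec hℓN g x
  have h2 := cocU_spec hℓN h (actU hℓN g x)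
  rw [Subgroup.coe_mul, map_mul, ← mul_assoc, h1, mul_assoc, h2, actU_mul,
    Subgroup.coe_mul, map_mul, mul_assoc]

/-- `T ^ x` in `Γ₀(N)` -/
theorem exists_actU (hℓN : ℓ ∣ N) (x : ZMod ℓ) : ∃ g : Gamma0 N, actU hℓN g 0 = x := by
  refine ⟨⟨⟨!![1, (x.val : ℤ); 0, 1], by simp⟩, ?_⟩, ?_⟩
  · refine Gamma0_mem.mpr ?_
    change ((0 : ℤ) : ZMod N) = 0
    simp
  · rw [actU_apply]
    change (((1 : ℤ)) : ZMod ℓ) * ((((x.val : ℤ)) : ZMod ℓ) + ((1 : ℤ) : ZMod ℓ) * 0) = x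
    simp

/-- **`U_ℓ`, transfer form.** -/
theorem heckeChar_W_U (hℓN : ℓ ∣ N) {A : Type*} [CommGroup A] (χ : Gamma0 N →* A)
    (g : Gamma0 N) :
    heckeChar N ℓ (χ.comp (W N).toMonoidHom) g = ∏ x : ZMod ℓ, χ (cocU hℓN (W N g) x) := by
  rw [heckeChar]
  refine transfer_eq_prod_cocycle (fun (g : Gamma0 N) (x : ZMod ℓ) => actU hℓN (W N g) x)
    ?_ ?_ 0 ?_ ?_ (fun g x => χ (cocU hℓN (W N g) x)) ?_ _ ?_ g
  · intro g h x
    change actU hℓN (W N (g * h)) x = _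
    rw [map_mul, actU_mul]
  · intro x
    change actU hℓN (W N 1) x = x
    rw [map_one, actU_one]
  · intro g
    rw [mem_sub_iff_W]
    rw [actU_apply, mul_zero, add_zero, ← ZMod.intCast_zmod_eq_zero_iff_dvd]
    have h2 := unit_of_apply_one_zero_eq_zero ((W N g : Gamma0 N) : SL(2, ℤ))
      (cast_of hℓN (W N g))
    constructor
    · intro h
      rw [h, mul_zero]
    · intro h
      linear_combination (((((W N g : Gamma0 N) : SL(2, ℤ)) 0 0 : ℤ) : ZMod ℓ)) * h -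
        (((((W N g : Gamma0 N) : SL(2, ℤ)) 0 1 : ℤ) : ZMod ℓ)) * h2
  · intro x
    obtain ⟨g, hg⟩ := exists_actU hℓN x
    refine ⟨W N g, ?_⟩
    rw [W_W, hg]
  · intro g h x
    change χ (cocU hℓN (W N (g * h)) x) = _
    rw [map_mul (W N), cocU_mul, map_mul]
  · intro h
    change χ (W N (conjHom' N ℓ h)) = χ (cocU hℓN (W N (h : Gamma0 N)) 0)
    congr 1
    symm
    apply cocU_eq_of
    have h0 : actU hℓN (W N (h : Gamma0 N)) 0 = 0 := by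
      rw [actU_apply, mul_zero, add_zero,
        (ZMod.intCast_zmod_eq_zero_iff_dvd _ _).mpr ((mem_sub_iff_W (ℓ := ℓ) (h : Gamma0 N)).mp h.2),
        mul_zero]
    rw [h0, ZMod.val_zero]
    exact rep_zero_mul h

end U

/-! ### The case `ℓ ∤ N` -/

section T

variable {ℓ : ℕ} [Fact ℓ.Prime]

theorem smul_zero_iff (g : SL(2, ℤ)) :
    redMatrix ℓ g • ((0 : ZMod ℓ) : OnePoint (ZMod ℓ)) = ((0 : ZMod ℓ) : OnePoint (ZMod ℓ)) ↔
      (ℓ : ℤ) ∣ g 0 1 := by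
  rw [OnePoint.smul_some_eq_ite, redMatrix_apply_one_zero, redMatrix_apply_one_one,
    redMatrix_apply_zero_zero, redMatrix_apply_zero_one, mul_zero, mul_zero, zero_add, zero_add,
    ← ZMod.intCast_zmod_eq_zero_iff_dvd]
  have hdet := congrArg (Int.cast : ℤ → ZMod ℓ) (det_eq g)
  push_cast at hdet
  constructor
  · intro h
    by_cases ha : ((g 0 0 : ℤ) : ZMod ℓ) = 0
    · rw [if_pos ha] at h
      exact absurd h (OnePoint.infty_ne_coe _)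
    · rw [if_neg ha, OnePoint.coe_eq_coe, div_eq_zero_iff] at h
      exact h.resolve_right ha
  · intro h
    have ha : ((g 0 0 : ℤ) : ZMod ℓ) ≠ 0 := by
      intro ha
      rw [ha, h, zero_mul, zero_mul, sub_zero] at hdet
      exact zero_ne_one hdet
    rw [if_neg ha, h, zero_div]

variable [NeZero N]

/-- **`T_ℓ`, transfer form.** -/
theorem heckeChar_W_T (hℓN : ¬ ℓ ∣ N) {A : Type*} [CommGroup A] (χ : Gamma0 N →* A)
    (g : Gamma0 N) :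
    heckeChar N ℓ (χ.comp (W N).toMonoidHom) g =
      ∏ x : OnePoint (ZMod ℓ), χ (cocyc hℓN (W N g) x) := by
  rw [heckeChar]
  refine transfer_eq_prod_cocycle (fun (g : Gamma0 N) (x : OnePoint (ZMod ℓ)) =>
      redMatrix ℓ ((W N g : Gamma0 N) : SL(2, ℤ)) • x) ?_ ?_ ((0 : ZMod ℓ) : OnePoint (ZMod ℓ))
      ?_ ?_ (fun g x => χ (cocyc hℓN (W N g) x)) ?_ _ ?_ g
  · intro g h x
    change redMatrix ℓ ((W N (g * h) : Gamma0 N) : SL(2, ℤ)) • x = _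
    rw [map_mul, Subgroup.coe_mul, redMatrix_mul, mul_smul]
  · intro x
    change redMatrix ℓ ((W N 1 : Gamma0 N) : SL(2, ℤ)) • x = _
    rw [map_one, Subgroup.coe_one, redMatrix_one, one_smul]
  · intro g
    rw [mem_sub_iff_W, smul_zero_iff]
  · intro x
    obtain ⟨g, hg⟩ := exists_smul_infty hℓN x
    obtain ⟨g₀, hg₀⟩ := exists_smul_infty hℓN ((0 : ZMod ℓ) : OnePoint (ZMod ℓ))
    refine ⟨W N (g₀⁻¹ * g), ?_⟩
    have h1 : redMatrix ℓ ((g₀ * (g₀⁻¹ * g) : Gamma0 N) : SL(2, ℤ)) • (∞ : OnePoint (ZMod ℓ)) =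
        redMatrix ℓ ((g₀⁻¹ * g : Gamma0 N) : SL(2, ℤ)) •
          (redMatrix ℓ (g₀ : SL(2, ℤ)) • (∞ : OnePoint (ZMod ℓ))) := by
      rw [Subgroup.coe_mul _ g₀, redMatrix_mul, mul_smul]
    rw [W_W, ← hg₀, ← h1, mul_inv_cancel_left, hg]
  · intro g h x
    change χ (cocyc hℓN (W N (g * h)) x) = _
    rw [map_mul (W N), cocyc_mul, map_mul]
  · intro h
    change χ (W N (conjHom' N ℓ h)) = χ (cocyc hℓN (W N (h : Gamma0 N)) _)
    congr 1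
    symm
    apply cocyc_eq_of
    rw [(smul_zero_iff _).mpr ((mem_sub_iff_W (ℓ := ℓ) (h : Gamma0 N)).mp h.2), heckeRep_coe,
      ZMod.val_zero]
    exact rep_zero_mul h

end T

/-! ### The operators on homomorphisms -/

section Ops

variable [NeZero N] {A : Type*} [AddCommGroup A]

/-- `ψ ↦ ψ ∘ W` -/
def compW (ψ : Additive (Gamma0 N) →+ A) : Additive (Gamma0 N) →+ A :=
  ψ.comp (MonoidHom.toAdditive (W N).toMonoidHom)

theorem compW_apply (ψ : Additive (Gamma0 N) →+ A) (γ : Gamma0 N) :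
    compW ψ (Additive.ofMul γ) = ψ (Additive.ofMul (W N γ)) := rfl

theorem compW_compW (ψ : Additive (Gamma0 N) →+ A) : compW (compW ψ) = ψ := by
  refine AddMonoidHom.ext fun γ => ?_
  obtain ⟨γ, rfl⟩ := Additive.ofMul.surjective γ
  rw [compW_apply, compW_apply, W_W]

theorem comp_compW {B : Type*} [AddCommGroup B] (g : A →+ B) (ψ : Additive (Gamma0 N) →+ A) :
    compW (g.comp ψ) = g.comp (compW ψ) := rfl

theorem compW_add (ψ ψ' : Additive (Gamma0 N) →+ A) : compW (ψ + ψ') = compW ψ + compW ψ' := rfl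

/-- The twisted Hecke operator on homomorphisms. -/
def heckeW (N ℓ : ℕ) [NeZero N] [NeZero ℓ] (ψ : Additive (Gamma0 N) →+ A) :
    Additive (Gamma0 N) →+ A := compW (heckeAdd N ℓ (compW ψ))

theorem heckeW_comp {ℓ : ℕ} [NeZero ℓ] {B : Type*} [AddCommGroup B] (g : A →+ B)
    (ψ : Additive (Gamma0 N) →+ A) : heckeW N ℓ (g.comp ψ) = g.comp (heckeW N ℓ ψ) := by
  rw [heckeW, comp_compW, heckeAdd_comp, comp_compW]
  rfl

theorem heckeAdd_compW {ℓ : ℕ} [NeZero ℓ] (ψ : Additive (Gamma0 N) →+ A) :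
    heckeAdd N ℓ (compW ψ) = compW (heckeW N ℓ ψ) := by
  rw [heckeW, compW_compW]

/-- for `ℓ ∣ N`, `heckeW` is the transfer form of `U_ℓ` -/
theorem heckeW_apply_U {ℓ : ℕ} [NeZero ℓ] (hℓN : ℓ ∣ N) (ψ : Additive (Gamma0 N) →+ A)
    (γ : Gamma0 N) : heckeW N ℓ ψ (Additive.ofMul γ) =
      ∑ x : ZMod ℓ, ψ (Additive.ofMul (cocU hℓN γ x)) := by
  have h := heckeChar_W_U hℓN (AddMonoidHom.toMultiplicativeRight ψ) (W N γ)
  rw [W_W] at h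
  exact congrArg Multiplicative.toAdd h

/-- for `ℓ ∤ N`, `heckeW` is the transfer form of `T_ℓ` -/
theorem heckeW_eq_heckeHom {ℓ : ℕ} [NeZero ℓ] (hℓ : ℓ.Prime) (hℓN : ¬ ℓ ∣ N)
    (ψ : Additive (Gamma0 N) →+ A) : heckeW N ℓ ψ = heckeHom hℓ hℓN ψ := by
  have : Fact ℓ.Prime := ⟨hℓ⟩
  refine AddMonoidHom.ext fun g => ?_
  obtain ⟨g, rfl⟩ := Additive.ofMul.surjective g
  rw [heckeHom_apply]
  have h := heckeChar_W_T (ℓ := ℓ) hℓN (AddMonoidHom.toMultiplicativeRight ψ) (W N g)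
  rw [W_W] at h
  exact congrArg Multiplicative.toAdd h

theorem compW_mem_XN {n : ℕ} {ψ : Additive (Gamma0 N) →+ ZMod n} (hψ : ψ ∈ XN N n) :
    compW ψ ∈ XN N n := by
  intro γ hγ
  rw [compW_apply]
  exact hψ _ (by rw [W_trace]; exact hγ)

end Ops

end Fermat.Agent.P2.Full
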