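import Fermat.Agent.P2.Full.Group
import Fermat.Agent.GAL.SupportH5
import Fermat.Prelude.Def_CuspForm_HeckeEvalForms

/-!
# Full Hecke support: the full Hecke algebra acts on the period lattice
-/

set_option autoImplicit false

open UpperHalfPlane Complex Matrix.SpecialLinearGroup CongruenceSubgroup
open scoped MatrixGroups ModularForm OnePoint
open P2MW.S_ModularForm_heckeT_slash_eq_self_of_mem_Gamma0.ModularForm.HeckeSlashInvariance
open Fermat.Agent.EichlerInt Fermat.Agent.GAL Fermat.Agent.GAL.HeckeHom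
open Fermat.Agent.GAL.PeriodLattice

noncomputable section

namespace Fermat.Agent.P2.Full

variable {N : ℕ} [NeZero N]

/-- **`U_ℓ`-equivariance of the periods.** -/
theorem perHom_comp_heckeULin {ℓ : ℕ} [NeZero ℓ] (hℓN : ℓ ∣ N) (γ : Additive (Gamma0 N)) :
    perHom N γ ∘ₗ CuspForm.heckeULin 2 hℓN = heckeW N ℓ (perHom N) γ := by
  obtain ⟨γ, rfl⟩ := Additive.ofMul.surjective γ
  ext f
  rw [perHom_ofMul, heckeW_apply_U hℓN, LinearMap.comp_apply, LinearMap.sum_apply]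
  set F : ℍ → ℂ := (primOf N f : ℍ → ℂ) with hFdef
  have hF : IsPrim f F := isPrim_primOf f
  set G : ℍ → ℂ := fun τ => ∑ x : ZMod ℓ, F (ModularForm.heckeMatrix ℓ x.val • τ) with hGdef
  have hG : IsPrim (CuspForm.heckeULin 2 hℓN f : ℍ → ℂ) G := by
    intro τ
    rw [CuspForm.coe_heckeULin_apply, heckeU_eq_sum_zmod, Finset.sum_apply]
    have h1 : G ∘ ofComplex = fun z => ∑ x : ZMod ℓ,
        ((fun τ => F (ModularForm.heckeMatrix ℓ x.val • τ)) ∘ ofComplex) z := rfl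
    rw [h1]
    exact HasDerivAt.fun_sum fun x _ => isPrim_comp_smul (ModularForm.heckeMatrix ℓ x.val)
      (ModularForm.det_heckeMatrix_pos ℓ _) hF τ
  rw [← sub_eq_perFun hG γ UpperHalfPlane.I]
  have h2 : ∀ x : ZMod ℓ,
      F (ModularForm.heckeMatrix ℓ x.val • ((γ : SL(2, ℤ)) • UpperHalfPlane.I)) =
      F (ModularForm.heckeMatrix ℓ (actU hℓN γ x).val • UpperHalfPlane.I) +
        perFun (cocU hℓN γ x) f := by
    intro x
    have h3 : ModularForm.heckeMatrix ℓ x.val • ((γ : SL(2, ℤ)) • UpperHalfPlane.I) =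
        (cocU hℓN γ x : SL(2, ℤ)) • (ModularForm.heckeMatrix ℓ (actU hℓN γ x).val •
          UpperHalfPlane.I) := by
      have h4 : (ModularForm.heckeMatrix ℓ x.val * mapGL ℝ (γ : SL(2, ℤ))) • UpperHalfPlane.I =
          (mapGL ℝ (cocU hℓN γ x : SL(2, ℤ)) *
            ModularForm.heckeMatrix ℓ (actU hℓN γ x).val) • UpperHalfPlane.I := by
        rw [cocU_spec]
      rw [mul_smul, mul_smul] at h4
      exact h4
    rw [h3, ← sub_eq_perFun hF (cocU hℓN γ x)
      (ModularForm.heckeMatrix ℓ (actU hℓN γ x).val • UpperHalfPlane.I)]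
    ring
  rw [hGdef]
  simp only
  simp_rw [h2]
  rw [Finset.sum_add_distrib]
  have h5 : ∑ x : ZMod ℓ, F (ModularForm.heckeMatrix ℓ (actU hℓN γ x).val •
      UpperHalfPlane.I) = ∑ x : ZMod ℓ, F (ModularForm.heckeMatrix ℓ x.val • UpperHalfPlane.I) :=
    Equiv.sum_comp (affinePerm (γ : SL(2, ℤ)) (cast_of hℓN γ))
      (fun x => F (ModularForm.heckeMatrix ℓ x.val • UpperHalfPlane.I))
  rw [h5, add_sub_cancel_left]
  rfl

/-- the generators of the full Hecke algebra -/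
theorem perHom_comp_gen (ℓ : Nat.Primes) (γ : Additive (Gamma0 N)) :
    haveI : NeZero (ℓ : ℕ) := ⟨ℓ.2.ne_zero⟩
    perHom N γ ∘ₗ (CuspForm.heckeFormsGen N 2 ℓ : Module.End ℂ (CuspForm (Gamma0 N) 2)) =
      heckeW N ℓ (perHom N) γ := by
  haveI : NeZero (ℓ : ℕ) := ⟨ℓ.2.ne_zero⟩
  by_cases h : (ℓ : ℕ) ∣ N
  · rw [CuspForm.heckeFormsGen_of_dvd h]
    exact perHom_comp_heckeULin h γ
  · rw [CuspForm.heckeFormsGen_of_not_dvd h, heckeW_eq_heckeHom ℓ.2 h]
    exact perHom_comp_heckeTLin ℓ.2 h γ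

theorem heckeW_perHom_mem (ℓ : ℕ) [NeZero ℓ] (γ : Additive (Gamma0 N)) :
    heckeW N ℓ (perHom N) γ ∈ perLat N := by
  have h1 := heckeW_comp (ℓ := ℓ) (perHom N).range.subtype (perHom N).rangeRestrict
  have h2 : (perHom N).range.subtype.comp (perHom N).rangeRestrict = perHom N := rfl
  rw [h2] at h1
  rw [h1]
  exact (heckeW N ℓ (perHom N).rangeRestrict γ).2

/-- the full Hecke algebra preserves the period lattice. -/
theorem perLat_stable_full {t : Module.End ℂ (CuspForm (Gamma0 N) 2)}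
    (ht : t ∈ CuspForm.heckeAlgebra N 2 ∅) : ∀ φ ∈ perLat N, φ ∘ₗ t ∈ perLat N := by
  induction ht using Algebra.adjoin_induction with
  | mem x hx =>
    rcases hx with ⟨ℓ, hℓ, hℓN, -, rfl⟩ | ⟨q, hqN, hq, -, rfl⟩
    · rintro _ ⟨γ, rfl⟩
      haveI : NeZero ℓ := ⟨hℓ.ne_zero⟩
      rw [perHom_comp_heckeTLin, ← heckeW_eq_heckeHom]
      exact heckeW_perHom_mem ℓ γ
    · rintro _ ⟨γ, rfl⟩
      haveI : NeZero q := ⟨hq.ne_zero⟩
      rw [perHom_comp_heckeULin]
      exact heckeW_perHom_mem q γ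
  | algebraMap r =>
    intro φ hφ
    have : φ ∘ₗ (algebraMap ℤ (Module.End ℂ (CuspForm (Gamma0 N) 2)) r) = r • φ := by
      ext f
      simp
    rw [this]
    exact Submodule.smul_mem _ _ hφ
  | add x y _ _ hx hy =>
    intro φ hφ
    rw [LinearMap.comp_add]
    exact add_mem (hx φ hφ) (hy φ hφ)
  | mul x y _ _ hx hy =>
    intro φ hφ
    have : φ ∘ₗ (x * y) = (φ ∘ₗ x) ∘ₗ y := rfl
    rw [this]
    exact hy _ (hx φ hφ)

variable (N) in
/-- the action of the full Hecke algebra on the period lattice -/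
def actFull : CuspForm.heckeAlgebra N 2 ∅ →+* Module.End ℤ (perLat N) where
  toFun t :=
    { toFun := fun φ => ⟨φ.1 ∘ₗ t.1, perLat_stable_full t.2 _ φ.2⟩
      map_add' := fun φ ψ => Subtype.ext (LinearMap.add_comp _ _ _)
      map_smul' := fun c φ => Subtype.ext (by ext f; simp) }
  map_zero' := by
    ext φ f
    show φ.1 ((0 : Module.End ℂ (CuspForm (Gamma0 N) 2)) f) = 0
    rw [LinearMap.zero_apply, map_zero]
  map_one' := by
    ext φ f
    rfl
  map_add' a b := by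
    ext φ f
    show φ.1 ((a.1 + b.1) f) = φ.1 (a.1 f) + φ.1 (b.1 f)
    rw [LinearMap.add_apply, map_add]
  map_mul' a b := by
    ext φ f
    show φ.1 ((a * b).1 f) = φ.1 ((b.1 * a.1) f)
    have h : a * b = b * a := mul_comm a b
    rw [h]
    rfl

theorem coe_actFull (t : CuspForm.heckeAlgebra N 2 ∅) (φ : perLat N) :
    ((actFull N t φ : perLat N) : CuspForm (Gamma0 N) 2 →ₗ[ℂ] ℂ) = φ.1 ∘ₗ t.1 := rfl

theorem actFull_injective : Function.Injective (actFull N) := by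
  rw [injective_iff_map_eq_zero]
  intro t ht
  apply Subtype.ext
  refine LinearMap.ext fun f => ?_
  show t.1 f = 0
  apply eq_zero_of_perHom
  intro γ
  have h := congrArg (fun b : Module.End ℤ (perLat N) =>
    ((b ⟨perHom N γ, ⟨γ, rfl⟩⟩ : perLat N) : CuspForm (Gamma0 N) 2 →ₗ[ℂ] ℂ) f) ht
  exact h

/-- the transfer of a homomorphism factoring through the period lattice -/
theorem heckeW_comp_rangeRestrict (ℓ : Nat.Primes) {A : Type*} [AddCommGroup A]
    (ψ : perLat N →+ A) :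
    haveI : NeZero (ℓ : ℕ) := ⟨ℓ.2.ne_zero⟩
    heckeW N ℓ (ψ.comp (perHom N).rangeRestrict) =
      (ψ.comp (actFull N (CuspForm.heckeFormsGen N 2 ℓ)).toAddMonoidHom).comp
        (perHom N).rangeRestrict := by
  haveI : NeZero (ℓ : ℕ) := ⟨ℓ.2.ne_zero⟩
  refine AddMonoidHom.ext fun γ => ?_
  have h1 : ((actFull N (CuspForm.heckeFormsGen N 2 ℓ)) ((perHom N).rangeRestrict γ)) =
      heckeW N ℓ (perHom N).rangeRestrict γ := by
    apply Subtype.ext
    have h2 : ((heckeW N ℓ (perHom N).rangeRestrict γ : (perHom N).range) :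
        CuspForm (Gamma0 N) 2 →ₗ[ℂ] ℂ) = heckeW N ℓ (perHom N) γ :=
      (DFunLike.congr_fun (heckeW_comp (ℓ := ℓ) (perHom N).range.subtype
        (perHom N).rangeRestrict) γ).symm
    refine Eq.trans ?_ h2.symm
    exact perHom_comp_gen ℓ γ
  have h3 := DFunLike.congr_fun (heckeW_comp (ℓ := ℓ) (A := (perHom N).range) ψ
    (perHom N).rangeRestrict) γ
  refine h3.trans ?_
  show ψ _ = ψ _
  exact congrArg ψ h1.symm

end Fermat.Agent.P2.Full
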